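import Mathlib

/-!
# S28 — abstract algebra core (hypothesis-explicit)

Pure commutative algebra, no modular forms.

Setting: `κ` a field, `A` a finite-dimensional commutative `κ`-algebra, `Ω` a field over `κ`,
`ρ : Θ → (A →ₐ[κ] Ω)` a finite family of pairwise distinct `κ`-algebra homomorphisms with
`finrank κ A ≤ card Θ`.

* `H686.card_le_finrank`          : `card Θ ≤ finrank κ A` (Dedekind independence of characters);
* `H686.eq_zero_of_forall_eq_zero`: `(∀ θ, ρ θ x = 0) → x = 0`;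
* `H686.algebraMap_norm_eq_prod`  : `algebraMap κ Ω (Algebra.norm κ x) = ∏ θ, ρ θ x`;
* `H686.exists_block_element`     : for every `θ₁` an element `e` with `ρ θ e = 1` on the block
  of `θ₁` (`ker ρ θ = ker ρ θ₁`) and `ρ θ e = 0` off the block;
* `H686.isField_of_distinct_embeddings` : the unit trick: if a set `U` of units which are,
  with their inverses, integral over a subring `A0` (integrally closed in `κ`, its units having
  `v = 0`) separates blocks from `θ₀`, then `A` is a field and `ρ θ₀` is injective.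
-/

set_option autoImplicit false

namespace Fermat.Agent.S28.H686

open Module

section Core

variable {κ A Ω Θ : Type*} [Field κ] [CommRing A] [Algebra κ A] [Module.Finite κ A]
  [Field Ω] [Algebra κ Ω] [Fintype Θ]

omit [Module.Finite κ A] in
/-- The rows `θ ↦ (i ↦ ρ θ (b i))` of the evaluation matrix are linearly independent
(Dedekind's independence of characters). -/
theorem linearIndependent_rows {ι : Type*} [Fintype ι] (b : Basis ι κ A)
    (ρ : Θ → A →ₐ[κ] Ω) (hρ : Function.Injective ρ) :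
    LinearIndependent Ω (fun θ : Θ => fun i : ι => ρ θ (b i)) := by
  classical
  have hind : LinearIndependent Ω (fun θ : Θ => ((ρ θ : A →* Ω) : A → Ω)) := by
    have h := linearIndependent_monoidHom A Ω
    refine h.comp (fun θ : Θ => ((ρ θ : A →ₐ[κ] Ω) : A →* Ω)) ?_
    intro θ θ' hθ
    apply hρ
    ext x
    exact DFunLike.congr_fun hθ x
  rw [Fintype.linearIndependent_iff] at hind ⊢
  intro c hc
  apply hind c
  funext x
  have hx : x = ∑ i, b.repr x i • b i := (b.sum_repr x).symm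
  have key : ∀ θ, ρ θ x = ∑ i, algebraMap κ Ω (b.repr x i) * ρ θ (b i) := by
    intro θ
    conv_lhs => rw [hx]
    rw [map_sum]
    refine Finset.sum_congr rfl fun i _ => ?_
    rw [Algebra.smul_def, map_mul, AlgHom.commutes]
  simp only [Finset.sum_apply, Pi.smul_apply, smul_eq_mul, Pi.zero_apply]
  have hc' : ∀ i, ∑ θ, c θ * ρ θ (b i) = 0 := by
    intro i
    have := congrFun hc i
    simpa [Finset.sum_apply, Pi.smul_apply, smul_eq_mul] using this
  calc ∑ θ, c θ * ((ρ θ : A →* Ω) : A → Ω) x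
      = ∑ θ, c θ * ∑ i, algebraMap κ Ω (b.repr x i) * ρ θ (b i) := by
        refine Finset.sum_congr rfl fun θ _ => ?_
        congr 1
        exact key θ
    _ = ∑ i, algebraMap κ Ω (b.repr x i) * ∑ θ, c θ * ρ θ (b i) := by
        simp only [Finset.mul_sum]
        rw [Finset.sum_comm]
        refine Finset.sum_congr rfl fun i _ => Finset.sum_congr rfl fun θ _ => ?_
        ring
    _ = 0 := by simp [hc']

/-- Distinct `κ`-algebra homomorphisms into a field: there are at most `finrank κ A` of them. -/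
theorem card_le_finrank (ρ : Θ → A →ₐ[κ] Ω) (hρ : Function.Injective ρ) :
    Fintype.card Θ ≤ finrank κ A := by
  classical
  have h := (linearIndependent_rows (Module.finBasis κ A) ρ hρ).fintype_card_le_finrank
  simpa using h

theorem finrank_eq_card (ρ : Θ → A →ₐ[κ] Ω) (hρ : Function.Injective ρ)
    (hcard : finrank κ A ≤ Fintype.card Θ) : finrank κ A = Fintype.card Θ :=
  le_antisymm hcard (card_le_finrank ρ hρ)

/-- A basis of `A` indexed by `Θ`. -/
noncomputable def basisTheta (ρ : Θ → A →ₐ[κ] Ω) (hρ : Function.Injective ρ)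
    (hcard : finrank κ A ≤ Fintype.card Θ) : Basis Θ κ A :=
  (Module.finBasis κ A).reindex
    (Fintype.equivOfCardEq (by simpa using finrank_eq_card ρ hρ hcard))

/-- The (square) evaluation matrix `(ρ θ (b θ'))`. -/
noncomputable def evalMatrix (ρ : Θ → A →ₐ[κ] Ω) (b : Basis Θ κ A) : Matrix Θ Θ Ω :=
  Matrix.of fun θ θ' => ρ θ (b θ')

omit [Module.Finite κ A] in
theorem isUnit_evalMatrix [DecidableEq Θ] (ρ : Θ → A →ₐ[κ] Ω) (hρ : Function.Injective ρ)
    (b : Basis Θ κ A) : IsUnit (evalMatrix ρ b) := by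
  rw [← Matrix.linearIndependent_rows_iff_isUnit]
  exact linearIndependent_rows b ρ hρ

omit [Module.Finite κ A] in
theorem evalMatrix_mulVec (ρ : Θ → A →ₐ[κ] Ω) (b : Basis Θ κ A) (x : A) :
    (evalMatrix ρ b).mulVec (fun θ' => algebraMap κ Ω (b.repr x θ')) = fun θ => ρ θ x := by
  funext θ
  have hx : x = ∑ i, b.repr x i • b i := (b.sum_repr x).symm
  conv_rhs => rw [hx]
  rw [map_sum]
  simp only [Matrix.mulVec, dotProduct, evalMatrix, Matrix.of_apply]
  refine Finset.sum_congr rfl fun i _ => ?_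
  rw [Algebra.smul_def, map_mul, AlgHom.commutes, mul_comm]

/-- The joint evaluation `A → Ω^Θ` is injective. -/
theorem eq_zero_of_forall_eq_zero (ρ : Θ → A →ₐ[κ] Ω) (hρ : Function.Injective ρ)
    (hcard : finrank κ A ≤ Fintype.card Θ) {x : A} (hx : ∀ θ, ρ θ x = 0) : x = 0 := by
  classical
  set b := basisTheta ρ hρ hcard
  have hM := isUnit_evalMatrix ρ hρ b
  have hinj := Matrix.mulVec_injective_iff_isUnit.mpr hM
  have h0 : (evalMatrix ρ b).mulVec (fun θ' => algebraMap κ Ω (b.repr x θ')) =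
      (evalMatrix ρ b).mulVec 0 := by
    rw [evalMatrix_mulVec, Matrix.mulVec_zero]
    funext θ
    exact hx θ
  have h1 := hinj h0
  have h2 : b.repr x = 0 := by
    ext θ'
    have := congrFun h1 θ'
    simpa using this
  exact (LinearEquiv.map_eq_zero_iff b.repr).mp h2

theorem eq_of_forall_eq (ρ : Θ → A →ₐ[κ] Ω) (hρ : Function.Injective ρ)
    (hcard : finrank κ A ≤ Fintype.card Θ) {x y : A} (hxy : ∀ θ, ρ θ x = ρ θ y) : x = y := by
  rw [← sub_eq_zero]
  apply eq_zero_of_forall_eq_zero ρ hρ hcard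
  intro θ
  rw [map_sub, hxy θ, sub_self]

/-- Norm = product over all the embeddings. -/
theorem algebraMap_norm_eq_prod (ρ : Θ → A →ₐ[κ] Ω) (hρ : Function.Injective ρ)
    (hcard : finrank κ A ≤ Fintype.card Θ) (x : A) :
    algebraMap κ Ω (Algebra.norm κ x) = ∏ θ, ρ θ x := by
  classical
  set b := basisTheta ρ hρ hcard
  set M := evalMatrix ρ b
  have hM : IsUnit M.det := (Matrix.isUnit_iff_isUnit_det _).mp (isUnit_evalMatrix ρ hρ b)
  set L := Algebra.leftMulMatrix b x
  have hmat : Matrix.diagonal (fun θ => ρ θ x) * M = M * (algebraMap κ Ω).mapMatrix L.transpose.transpose := by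
    ext θ j
    rw [Matrix.diagonal_mul, Matrix.mul_apply]
    simp only [Matrix.transpose_transpose, RingHom.mapMatrix_apply, Matrix.map_apply]
    have hxb : x * b j = ∑ i, L i j • b i := by
      have := (b.sum_repr (x * b j)).symm
      simpa [L, Algebra.leftMulMatrix_eq_repr_mul] using this
    have : ρ θ x * ρ θ (b j) = ∑ i, ρ θ (b i) * algebraMap κ Ω (L i j) := by
      rw [← map_mul, hxb, map_sum]
      refine Finset.sum_congr rfl fun i _ => ?_
      rw [Algebra.smul_def, map_mul, AlgHom.commutes, mul_comm]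
    simpa [M, evalMatrix] using this
  have hdet := congrArg Matrix.det hmat
  rw [Matrix.det_mul, Matrix.det_mul, Matrix.det_diagonal, Matrix.transpose_transpose,
    ← RingHom.map_det, ← Algebra.norm_eq_matrix_det, mul_comm] at hdet
  exact (hM.mul_left_cancel hdet).symm

/-- Kernels of the `ρ θ` are maximal ideals. -/
theorem ker_isMaximal (ρ : Θ → A →ₐ[κ] Ω) (θ : Θ) :
    (RingHom.ker (ρ θ : A →+* Ω)).IsMaximal := by
  have : IsArtinianRing A := IsArtinianRing.of_finite κ A
  have : (RingHom.ker (ρ θ : A →+* Ω)).IsPrime := RingHom.ker_isPrime _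
  exact IsArtinianRing.isMaximal_of_isPrime _

/-- For every `θ₁` there is `e : A` which is `1` at every `θ` in the block of `θ₁`
(`ker ρ θ = ker ρ θ₁`) and `0` at every other `θ`. -/
theorem exists_block_element (ρ : Θ → A →ₐ[κ] Ω) (θ₁ : Θ) :
    ∃ e : A, (∀ θ, RingHom.ker (ρ θ : A →+* Ω) = RingHom.ker (ρ θ₁ : A →+* Ω) → ρ θ e = 1) ∧
      (∀ θ, RingHom.ker (ρ θ : A →+* Ω) ≠ RingHom.ker (ρ θ₁ : A →+* Ω) → ρ θ e = 0) := by
  classical
  set 𝔪 : Ideal A := RingHom.ker (ρ θ₁ : A →+* Ω) with h𝔪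
  have hmax : 𝔪.IsMaximal := ker_isMaximal ρ θ₁
  set s : Finset Θ := Finset.univ.filter (fun θ => RingHom.ker (ρ θ : A →+* Ω) ≠ 𝔪) with hs
  set I : Ideal A := s.inf (fun θ => RingHom.ker (ρ θ : A →+* Ω)) with hI
  have hnot : ¬ I ≤ 𝔪 := by
    intro hle
    obtain ⟨θ, hθs, hθ⟩ := (Ideal.IsPrime.inf_le' hmax.isPrime).mp hle
    have hθ' : RingHom.ker (ρ θ : A →+* Ω) ≠ 𝔪 := (Finset.mem_filter.mp hθs).2
    exact hθ' ((ker_isMaximal ρ θ).eq_of_le hmax.ne_top hθ)
  have htop : I ⊔ 𝔪 = ⊤ := by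
    by_contra hne
    apply hnot
    have h1 : 𝔪 ≤ I ⊔ 𝔪 := le_sup_right
    have h2 : 𝔪 = I ⊔ 𝔪 := hmax.eq_of_le hne h1
    calc I ≤ I ⊔ 𝔪 := le_sup_left
      _ = 𝔪 := h2.symm
  have h1 : (1 : A) ∈ I ⊔ 𝔪 := by rw [htop]; trivial
  obtain ⟨e, heI, f, hf𝔪, hef⟩ := Submodule.mem_sup.mp h1
  refine ⟨e, ?_, ?_⟩
  · intro θ hθ
    have hf0 : ρ θ f = 0 := by
      have : f ∈ RingHom.ker (ρ θ : A →+* Ω) := by rw [hθ]; exact hf𝔪
      exact this
    have := congrArg (ρ θ) hef
    rw [map_add, hf0, add_zero, map_one] at this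
    exact this
  · intro θ hθ
    have hθs : θ ∈ s := Finset.mem_filter.mpr ⟨Finset.mem_univ _, hθ⟩
    have hle : I ≤ RingHom.ker (ρ θ : A →+* Ω) := Finset.inf_le hθs
    exact hle heI

end Core

section Valuation

variable {Ω : Type*} [Field Ω]

/-- An additive "order" function on nonzero elements is additive on finite products. -/
theorem order_prod {ι : Type*} (v : Ω → ℤ)
    (hv_mul : ∀ x y : Ω, x ≠ 0 → y ≠ 0 → v (x * y) = v x + v y) (hv_one : v 1 = 0)
    (s : Finset ι) (f : ι → Ω) (hf : ∀ i ∈ s, f i ≠ 0) :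
    v (∏ i ∈ s, f i) = ∑ i ∈ s, v (f i) := by
  classical
  induction s using Finset.induction_on with
  | empty => simpa using hv_one
  | insert a s ha ih =>
    rw [Finset.prod_insert ha, Finset.sum_insert ha]
    have h1 : f a ≠ 0 := hf a (Finset.mem_insert_self a s)
    have h2 : ∀ i ∈ s, f i ≠ 0 := fun i hi => hf i (Finset.mem_insert_of_mem hi)
    rw [hv_mul _ _ h1 (Finset.prod_ne_zero_iff.mpr h2), ih h2]

end Valuation

section Main

variable {A0 κ A Ω Θ : Type*} [CommRing A0] [Field κ] [CommRing A] [Algebra κ A]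
  [Module.Finite κ A] [Field Ω] [Algebra κ Ω] [Fintype Θ]
  [Algebra A0 κ] [Algebra A0 A] [IsScalarTower A0 κ A] [Algebra A0 Ω] [IsScalarTower A0 κ Ω]

/-- The block of `θ₁`. -/
noncomputable def block (ρ : Θ → A →ₐ[κ] Ω) (θ₁ : Θ) : Finset Θ :=
  letI := Classical.decEq (Ideal A)
  Finset.univ.filter (fun θ => RingHom.ker (ρ θ : A →+* Ω) = RingHom.ker (ρ θ₁ : A →+* Ω))

theorem mem_block {ρ : Θ → A →ₐ[κ] Ω} {θ₁ θ : Θ} :
    θ ∈ block ρ θ₁ ↔ RingHom.ker (ρ θ : A →+* Ω) = RingHom.ker (ρ θ₁ : A →+* Ω) := by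
  classical
  simp [block]

theorem self_mem_block (ρ : Θ → A →ₐ[κ] Ω) (θ₁ : Θ) : θ₁ ∈ block ρ θ₁ :=
  mem_block.mpr rfl

/-- **Block norm.** If `u` is a unit of `A` which is integral over `A0` together with its
inverse, then the product of the `ρ θ u` over one block is (the image of) a unit of `A0`. -/
theorem exists_unit_eq_block_prod
    (hA0inj : Function.Injective (algebraMap A0 κ))
    (hA0 : ∀ x : κ, IsIntegral A0 x → ∃ a : A0, algebraMap A0 κ a = x)
    (ρ : Θ → A →ₐ[κ] Ω) (hρ : Function.Injective ρ)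
    (hcard : finrank κ A ≤ Fintype.card Θ) (θ₁ : Θ)
    {u u' : A} (huu' : u * u' = 1) (hu : IsIntegral A0 u) (hu' : IsIntegral A0 u') :
    ∃ a : A0, IsUnit a ∧ algebraMap A0 Ω a = ∏ θ ∈ block ρ θ₁, ρ θ u := by
  classical
  obtain ⟨e, he1, he0⟩ := exists_block_element ρ θ₁
  have hρe : ∀ θ, ρ θ e = if θ ∈ block ρ θ₁ then 1 else 0 := by
    intro θ
    by_cases h : θ ∈ block ρ θ₁
    · rw [if_pos h]; exact he1 θ (mem_block.mp h)
    · rw [if_neg h]; exact he0 θ (fun h' => h (mem_block.mpr h'))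
  have hee : e * e = e := by
    apply eq_of_forall_eq ρ hρ hcard
    intro θ
    rw [map_mul, hρe θ]
    split_ifs <;> simp
  have heint : IsIntegral A0 e := by
    refine ⟨Polynomial.X ^ 2 - Polynomial.X, ?_, ?_⟩
    · exact Polynomial.monic_X_pow_sub (Polynomial.degree_X_le.trans_lt (by norm_num))
    · simp [pow_two, hee]
  -- the modified elements
  set x : A := u * e + (1 - e) with hx
  set x' : A := u' * e + (1 - e) with hx'
  have hxx' : x * x' = 1 := by
    have h1 : x * x' = (u * u') * (e * e) + (u + u') * (e - e * e) + (1 - 2 * e + e * e) := by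
      rw [hx, hx']; ring
    rw [h1, huu', hee]; ring
  have hxint : IsIntegral A0 x := (hu.mul heint).add (isIntegral_one.sub heint)
  have hx'int : IsIntegral A0 x' := (hu'.mul heint).add (isIntegral_one.sub heint)
  have hρx : ∀ (w : A) θ, ρ θ (w * e + (1 - e)) = if θ ∈ block ρ θ₁ then ρ θ w else 1 := by
    intro w θ
    rw [map_add, map_mul, map_sub, map_one, hρe θ]
    split_ifs <;> simp
  have hprod : ∀ w : A, algebraMap κ Ω (Algebra.norm κ (w * e + (1 - e))) =
      ∏ θ ∈ block ρ θ₁, ρ θ w := by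
    intro w
    rw [algebraMap_norm_eq_prod ρ hρ hcard]
    simp only [hρx w]
    rw [Finset.prod_ite_mem, Finset.univ_inter]
  -- integrality of the norms
  have hnormint : ∀ w : A, IsIntegral A0 w → IsIntegral A0 (Algebra.norm κ (w * e + (1 - e))) := by
    intro w hw
    have hwint : IsIntegral A0 (w * e + (1 - e)) := (hw.mul heint).add (isIntegral_one.sub heint)
    have h1 : IsIntegral A0 (algebraMap κ Ω (Algebra.norm κ (w * e + (1 - e)))) := by
      rw [algebraMap_norm_eq_prod ρ hρ hcard]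
      exact IsIntegral.prod _ fun θ _ => hwint.map (ρ θ)
    exact (isIntegral_algHom_iff (IsScalarTower.toAlgHom A0 κ Ω)
      (algebraMap κ Ω).injective).mp h1
  obtain ⟨a, ha⟩ := hA0 _ (hnormint u hu)
  obtain ⟨a', ha'⟩ := hA0 _ (hnormint u' hu')
  have haa' : a * a' = 1 := by
    apply hA0inj
    rw [map_mul, ha, ha', ← map_mul, hxx', map_one, map_one]
  refine ⟨a, IsUnit.of_mul_eq_one _ haa', ?_⟩
  rw [IsScalarTower.algebraMap_apply A0 κ Ω, ha, hprod u]

/-- **Abstract core.** `A` is a field as soon as the units in `U` separate every block from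
`θ₀` via their orders. -/
theorem isField_of_distinct_embeddings
    (hA0inj : Function.Injective (algebraMap A0 κ))
    (hA0 : ∀ x : κ, IsIntegral A0 x → ∃ a : A0, algebraMap A0 κ a = x)
    (v : Ω → ℤ) (hv_mul : ∀ x y : Ω, x ≠ 0 → y ≠ 0 → v (x * y) = v x + v y) (hv_one : v 1 = 0)
    (hv_unit : ∀ a : A0, IsUnit a → v (algebraMap A0 Ω a) = 0)
    (ρ : Θ → A →ₐ[κ] Ω) (hρ : Function.Injective ρ)
    (hcard : finrank κ A ≤ Fintype.card Θ) (θ₀ : Θ)
    (U : Set A) (hU : ∀ u ∈ U, ∃ u' : A, u * u' = 1 ∧ IsIntegral A0 u ∧ IsIntegral A0 u')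
    (hsep : ∀ B : Finset Θ, B.Nonempty → (∀ u ∈ U, ∑ θ ∈ B, v (ρ θ u) = 0) → θ₀ ∈ B) :
    IsField A ∧ Function.Injective (ρ θ₀) := by
  classical
  -- every block contains θ₀
  have hblock : ∀ θ₁, θ₀ ∈ block ρ θ₁ := by
    intro θ₁
    apply hsep _ ⟨θ₁, self_mem_block ρ θ₁⟩
    intro u huU
    obtain ⟨u', huu', hu, hu'⟩ := hU u huU
    obtain ⟨a, ha, hprod⟩ := exists_unit_eq_block_prod hA0inj hA0 ρ hρ hcard θ₁ huu' hu hu'
    have hne : ∀ θ ∈ block ρ θ₁, ρ θ u ≠ 0 := by
      intro θ _ h0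
      have := congrArg (ρ θ) huu'
      rw [map_mul, h0, zero_mul, map_one] at this
      exact zero_ne_one this
    rw [← order_prod v hv_mul hv_one _ _ hne, ← hprod]
    exact hv_unit a ha
  have hker : ∀ θ, RingHom.ker (ρ θ : A →+* Ω) = RingHom.ker (ρ θ₀ : A →+* Ω) :=
    fun θ => (mem_block.mp (hblock θ)).symm
  have hinj : Function.Injective (ρ θ₀) := by
    rw [injective_iff_map_eq_zero]
    intro x hx
    apply eq_zero_of_forall_eq_zero ρ hρ hcard
    intro θ
    have : x ∈ RingHom.ker (ρ θ : A →+* Ω) := by rw [hker θ]; exact hx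
    exact this
  refine ⟨?_, hinj⟩
  have : IsDomain A := hinj.isDomain (ρ θ₀ : A →+* Ω)
  have : Algebra.IsIntegral κ A := Algebra.IsIntegral.of_finite κ A
  exact isField_of_isIntegral_of_isField' (Field.toIsField κ)

end Main

end Fermat.Agent.S28.H686

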