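import Mathlib
import Fermat.Prelude.Def_ModularForm_HeckeOperator
import Fermat.Agent.S28.H565.TExp

/-!
# S28 analytic layer: substitution `t ↦ ζ t^e` in convergent Laurent expansions

Builds on helper565's `HasTExp` (`Fermat/Agent/S28/H565/TExp.lean`).

* `twistC ζ φ` : the series `φ(ζ t)` (`coeff n = ζ^n * φ.coeff n`), a ring hom for `ζ ≠ 0`;
* `substSeries ζ e φ` : the series `φ(ζ t^e)`;
* `hasTExp_comp_of_qParam` : if `𝕢 h (M τ) = ζ * 𝕢 H τ ^ e` then
  `HasTExp h f φ → HasTExp H (f ∘ M) (substSeries ζ e φ)`;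
* `qParam_upperTriangular_smul` : for `M = (a b; 0 d)`, `𝕢 1 (M • τ) = exp(2πi b/d) * 𝕢 N τ ^ e`
  when `N * a = e * d`;
* order / leading coefficient of `substSeries`.
-/

set_option autoImplicit false

noncomputable section

open UpperHalfPlane Complex Function
open scoped Real

namespace Fermat.Agent.S28.H686

open Fermat.Agent.S28.H565 ModularCurve

local notation "𝕢" => Periodic.qParam

/-! ### The twist `t ↦ ζ t` -/

/-- underlying function of `twistC` -/
def twistCFun (ζ : ℂ) (φ : LaurentSeries ℂ) : LaurentSeries ℂ :=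
  HahnSeries.ofSuppBddBelow (fun n : ℤ => ζ ^ n * φ.coeff n)
    ⟨φ.order, fun m hm => by
      by_contra h
      exact hm (by simp [HahnSeries.coeff_eq_zero_of_lt_order (not_le.mp h)])⟩

@[simp] theorem twistCFun_coeff (ζ : ℂ) (φ : LaurentSeries ℂ) (n : ℤ) :
    (twistCFun ζ φ).coeff n = ζ ^ n * φ.coeff n := rfl

theorem twistCFun_support (ζ : ℂ) (φ : LaurentSeries ℂ) :
    (twistCFun ζ φ).support ⊆ φ.support := by
  intro m hm
  simp only [HahnSeries.mem_support, twistCFun_coeff] at hm ⊢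
  intro h0
  exact hm (by rw [h0, mul_zero])

theorem coeff_mul_both {R : Type*} [CommRing R] {x y : LaurentSeries R} {a : ℤ} {s t : Set ℤ}
    (hs : s.IsPWO) (ht : t.IsPWO) (hxs : x.support ⊆ s) (hyt : y.support ⊆ t) :
    (x * y).coeff a =
      ∑ ij ∈ Finset.antidiagonal hs ht a, x.coeff ij.fst * y.coeff ij.snd := by
  rw [HahnSeries.coeff_mul_left' hs hxs]
  refine Finset.sum_subset (Finset.antidiagonal_mono_right hyt) ?_
  intro ij hij hnot
  have hj : ij.2 ∉ y.support := by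
    intro hj
    apply hnot
    rw [Finset.mem_antidiagonal] at hij ⊢
    exact ⟨hij.1, hj, hij.2.2⟩
  simp only [HahnSeries.mem_support, not_not] at hj
  rw [hj, mul_zero]

/-- The substitution `t ↦ ζ t` on Laurent series, for `ζ ≠ 0`. -/
def twistC (ζ : ℂ) (hζ : ζ ≠ 0) : LaurentSeries ℂ →+* LaurentSeries ℂ where
  toFun := twistCFun ζ
  map_zero' := by ext n; simp
  map_one' := by
    ext n
    by_cases h : n = 0
    · subst h; simp
    · simp [HahnSeries.coeff_one, h]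
  map_add' φ ψ := by ext n; simp [mul_add]
  map_mul' φ ψ := by
    ext n
    rw [coeff_mul_both φ.isPWO_support ψ.isPWO_support (twistCFun_support ζ φ)
      (twistCFun_support ζ ψ)]
    simp only [twistCFun_coeff, HahnSeries.coeff_mul, Finset.mul_sum]
    refine Finset.sum_congr rfl ?_
    intro ij hij
    rw [Finset.mem_antidiagonal] at hij
    rw [← hij.2.2, zpow_add₀ hζ]
    ring

@[simp] theorem twistC_coeff (ζ : ℂ) (hζ : ζ ≠ 0) (φ : LaurentSeries ℂ) (n : ℤ) :
    (twistC ζ hζ φ).coeff n = ζ ^ n * φ.coeff n := rfl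

theorem twistC_one (φ : LaurentSeries ℂ) : twistC 1 one_ne_zero φ = φ := by
  ext n; simp

/-! ### The substitution `t ↦ ζ t^e` -/

/-- The series `φ(ζ t^e)`. -/
def substSeries (ζ : ℂ) (hζ : ζ ≠ 0) (e : ℕ) [NeZero e] :
    LaurentSeries ℂ →+* LaurentSeries ℂ :=
  (qExpand ℂ e).comp (twistC ζ hζ)

theorem substSeries_coeff_mul (ζ : ℂ) (hζ : ζ ≠ 0) (e : ℕ) [NeZero e] (φ : LaurentSeries ℂ)
    (n : ℤ) : (substSeries ζ hζ e φ).coeff ((e : ℤ) * n) = ζ ^ n * φ.coeff n := by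
  simp [substSeries]

theorem substSeries_coeff_of_not_dvd (ζ : ℂ) (hζ : ζ ≠ 0) (e : ℕ) [NeZero e]
    (φ : LaurentSeries ℂ) {m : ℤ} (hm : ¬ (e : ℤ) ∣ m) : (substSeries ζ hζ e φ).coeff m = 0 := by
  simp only [substSeries, RingHom.comp_apply]
  exact qExpand_coeff_of_not_dvd e _ hm

theorem substSeries_one_eq_qExpand (e : ℕ) [NeZero e] (φ : LaurentSeries ℂ) :
    substSeries 1 one_ne_zero e φ = qExpand ℂ e φ := by
  simp [substSeries, twistC_one]

/-- **Substitution lemma.** If the local parameters are related by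
`𝕢 h (M τ) = ζ * (𝕢 H τ)^e`, then an `h`-expansion `φ` of `f` gives the `H`-expansion
`φ(ζ t^e)` of `f ∘ M`. -/
theorem hasTExp_comp_of_qParam {h H : ℝ} {f : ℍ → ℂ} {φ : LaurentSeries ℂ}
    (hf : HasTExp h f φ) (M : ℍ → ℍ) (ζ : ℂ) (hζ : ζ ≠ 0) (e : ℕ) [NeZero e]
    (hM : ∀ τ : ℍ, 𝕢 h (M τ) = ζ * 𝕢 H τ ^ e) :
    HasTExp H (fun τ => f (M τ)) (substSeries ζ hζ e φ) := by
  intro τ
  have h1 := hf (M τ)
  have hinj : Function.Injective (fun n : ℤ => (e : ℤ) * n) := by
    intro a b hab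
    have he : (e : ℤ) ≠ 0 := by exact_mod_cast NeZero.ne e
    exact mul_left_cancel₀ he hab
  have hzero : ∀ m ∉ Set.range (fun n : ℤ => (e : ℤ) * n),
      (substSeries ζ hζ e φ).coeff m * 𝕢 H τ ^ m = 0 := by
    intro m hm
    have : ¬ (e : ℤ) ∣ m := by
      rintro ⟨k, rfl⟩
      exact hm ⟨k, rfl⟩
    rw [substSeries_coeff_of_not_dvd ζ hζ e φ this, zero_mul]
  rw [← hinj.hasSum_iff hzero]
  refine h1.congr_fun ?_ |>.mono_left le_rfl
  intro n
  simp only [Function.comp_apply]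
  rw [substSeries_coeff_mul, hM τ, mul_zpow, ← zpow_natCast (𝕢 H τ) e, ← zpow_mul]
  ring

/-- Change of width `1 → N`: `t_1 = t_N ^ N`. -/
theorem qParam_one_eq_pow (N : ℕ) [NeZero N] (z : ℂ) : 𝕢 1 z = 𝕢 N z ^ N := by
  have hN : (N : ℂ) ≠ 0 := by exact_mod_cast NeZero.ne N
  simp only [Periodic.qParam, ← Complex.exp_nat_mul]
  congr 1
  push_cast
  field_simp

theorem hasTExp_width {f : ℍ → ℂ} {φ : LaurentSeries ℂ} (hf : HasTExp 1 f φ)
    (N : ℕ) [NeZero N] : HasTExp N f (qExpand ℂ N φ) := by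
  have := hasTExp_comp_of_qParam (H := N) hf id 1 one_ne_zero N (fun τ => by
    rw [one_mul]; exact qParam_one_eq_pow N τ)
  rw [substSeries_one_eq_qExpand] at this
  exact this

/-! ### Upper triangular matrices -/

theorem coe_upperTriangular_smul (a b d : ℝ) (ha : 0 < a) (hd : 0 < d) (had : a * d ≠ 0)
    (τ : ℍ) : ((ModularForm.upperTriangularGL a b d had • τ : ℍ) : ℂ) = (a * τ + b) / d := by
  have hdet : 0 < ((ModularForm.upperTriangularGL a b d had).det : ℝˣ).val := by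
    have : ((ModularForm.upperTriangularGL a b d had).det : ℝˣ).val = a * d := by
      rw [Matrix.GeneralLinearGroup.val_det_apply, ModularForm.val_upperTriangularGL,
        Matrix.det_fin_two_of]
      ring
    rw [this]
    positivity
  rw [UpperHalfPlane.coe_smul_of_det_pos hdet]
  simp [UpperHalfPlane.num, UpperHalfPlane.denom]

theorem denom_upperTriangular (a b d : ℝ) (had : a * d ≠ 0) (z : ℂ) :
    UpperHalfPlane.denom (ModularForm.upperTriangularGL a b d had) z = d := by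
  simp [UpperHalfPlane.denom]

/-- `𝕢 1 (M • τ) = exp(2πi b/d) * (𝕢 N τ)^e` for `M = (a b; 0 d)` and `N * a = e * d`. -/
theorem qParam_upperTriangular_smul (N a d e : ℕ) (b : ℤ) [NeZero N] (ha : 0 < a) (hd : 0 < d)
    (he : N * a = e * d) (had : (a : ℝ) * d ≠ 0) (τ : ℍ) :
    𝕢 1 ((ModularForm.upperTriangularGL a b d had • τ : ℍ) : ℂ) =
      cexp (2 * π * Complex.I * b / d) * 𝕢 N τ ^ e := by
  rw [coe_upperTriangular_smul a b d (by exact_mod_cast ha) (by exact_mod_cast hd) had τ]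
  have hN : (N : ℂ) ≠ 0 := by exact_mod_cast NeZero.ne N
  have hd' : (d : ℂ) ≠ 0 := by exact_mod_cast hd.ne'
  have he' : (e : ℂ) / N = a / d := by
    have : (N : ℂ) * a = e * d := by exact_mod_cast congrArg (Nat.cast : ℕ → ℂ) he
    field_simp
    linear_combination -this
  simp only [Periodic.qParam, ← Complex.exp_nat_mul, ← Complex.exp_add]
  congr 1
  push_cast
  have : (e : ℂ) = N * (a / d) := by
    rw [← he']; field_simp
  rw [this]
  field_simp
  ring

/-! ### Order and leading coefficient of `φ(ζ t^e)` -/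

theorem substSeries_ne_zero (ζ : ℂ) (hζ : ζ ≠ 0) (e : ℕ) [NeZero e] {φ : LaurentSeries ℂ}
    (hφ : φ ≠ 0) : substSeries ζ hζ e φ ≠ 0 := by
  intro h
  have h1 := congrArg (fun ψ : LaurentSeries ℂ => ψ.coeff ((e : ℤ) * φ.order)) h
  simp only [substSeries_coeff_mul, HahnSeries.coeff_zero] at h1
  rcases mul_eq_zero.mp h1 with h2 | h2
  · exact zpow_ne_zero _ hζ h2
  · exact hφ (HahnSeries.coeff_order_eq_zero.mp h2)

theorem substSeries_order (ζ : ℂ) (hζ : ζ ≠ 0) (e : ℕ) [NeZero e] {φ : LaurentSeries ℂ}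
    (hφ : φ ≠ 0) : (substSeries ζ hζ e φ).order = (e : ℤ) * φ.order := by
  have hne := substSeries_ne_zero ζ hζ e hφ
  have he : (0 : ℤ) < e := by exact_mod_cast Nat.pos_of_ne_zero (NeZero.ne e)
  apply le_antisymm
  · apply HahnSeries.order_le_of_coeff_ne_zero
    rw [substSeries_coeff_mul]
    exact mul_ne_zero (zpow_ne_zero _ hζ) (fun h => hφ (HahnSeries.coeff_order_eq_zero.mp h))
  · have h1 : (substSeries ζ hζ e φ).coeff (substSeries ζ hζ e φ).order ≠ 0 :=
      fun h => hne (HahnSeries.coeff_order_eq_zero.mp h)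
    by_cases hdvd : (e : ℤ) ∣ (substSeries ζ hζ e φ).order
    · obtain ⟨n, hn⟩ := hdvd
      rw [hn, substSeries_coeff_mul] at h1
      have h2 : φ.coeff n ≠ 0 := fun h0 => h1 (by rw [h0, mul_zero])
      have h3 : φ.order ≤ n := HahnSeries.order_le_of_coeff_ne_zero h2
      rw [hn]
      exact mul_le_mul_of_nonneg_left h3 he.le
    · exact absurd (substSeries_coeff_of_not_dvd ζ hζ e φ hdvd) h1

theorem substSeries_leadingCoeff (ζ : ℂ) (hζ : ζ ≠ 0) (e : ℕ) [NeZero e] {φ : LaurentSeries ℂ}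
    (hφ : φ ≠ 0) :
    (substSeries ζ hζ e φ).leadingCoeff = ζ ^ φ.order * φ.leadingCoeff := by
  rw [HahnSeries.leadingCoeff_eq, HahnSeries.leadingCoeff_eq, substSeries_order ζ hζ e hφ,
    substSeries_coeff_mul]

/-- Coefficients of `φ(ζ t^e)` stay in any subring containing `ζ`, `ζ⁻¹` and the
coefficients of `φ`. -/
theorem substSeries_coeff_mem (O : Subring ℂ) (ζ : ℂ) (hζ : ζ ≠ 0) (hζO : ζ ∈ O)
    (hζO' : ζ⁻¹ ∈ O) (e : ℕ) [NeZero e] {φ : LaurentSeries ℂ} (hφ : ∀ n, φ.coeff n ∈ O)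
    (m : ℤ) : (substSeries ζ hζ e φ).coeff m ∈ O := by
  by_cases hdvd : (e : ℤ) ∣ m
  · obtain ⟨n, rfl⟩ := hdvd
    rw [substSeries_coeff_mul]
    refine O.mul_mem ?_ (hφ n)
    rcases Int.natAbs_eq n with h | h
    · rw [h, zpow_natCast]; exact O.pow_mem hζO _
    · rw [h, zpow_neg, zpow_natCast, ← inv_pow]; exact O.pow_mem hζO' _
  · rw [substSeries_coeff_of_not_dvd ζ hζ e φ hdvd]; exact O.zero_mem

end Fermat.Agent.S28.H686
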