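import Mathlib
import Fermat.Prelude.Def_ModularForm_HeckeOperator
import Fermat.Agent.S22T.Hermite
import Fermat.Agent.S28.H565.JExp
import Fermat.Agent.S28.H686.Subst

/-!
# S28 analytic layer: the `SL(2,ℤ)`-conjugates of `j(dτ)` and `Δ(dτ)/Δ(τ)`

For `g ∈ SL(2,ℤ)` and `d ≥ 1`, Hermite reduction `(d 0; 0 1) g = γ (a b; 0 d')` with
`a = gcd(d, g₁₀)`, `a d' = d` gives

* `jFun (d • g • τ) = jFun ((a τ + b)/d')`,
* `Δ (d • g • τ) / Δ (g • τ) = d'⁻¹² Δ ((a τ + b)/d') / Δ τ`,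

and hence explicit convergent expansions in `t = exp(2πiτ/N)` (for `d ∣ N`), with order
`N a²/d - N` and leading coefficient `d'⁻¹² ζ` for the `Δ`-quotient.
-/

set_option autoImplicit false

noncomputable section

open UpperHalfPlane Complex Function ModularForm
open scoped Real MatrixGroups ModularForm

namespace Fermat.Agent.S28.H686

open Fermat.Agent.S28.H565 ModularCurve

local notation "𝕢" => Periodic.qParam
local notation "Δ" => ModularForm.discriminant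

/-! ### Basic transformation laws -/

theorem discriminant_smul (γ : SL(2, ℤ)) (z : ℍ) :
    Δ (γ • z) = (denom (Matrix.SpecialLinearGroup.mapGL ℝ γ) z) ^ 12 * Δ z := by
  have := SlashInvariantForm.slash_action_eqn'' (CuspForm.discriminant)
    (γ := Matrix.SpecialLinearGroup.mapGL ℝ γ) (MonoidHom.mem_range.mpr ⟨γ, rfl⟩) z
  exact_mod_cast this

theorem E4_smul (γ : SL(2, ℤ)) (z : ℍ) :
    E₄ (γ • z) = (denom (Matrix.SpecialLinearGroup.mapGL ℝ γ) z) ^ 4 * E₄ z := by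
  have := SlashInvariantForm.slash_action_eqn'' E₄
    (γ := Matrix.SpecialLinearGroup.mapGL ℝ γ) (MonoidHom.mem_range.mpr ⟨γ, rfl⟩) z
  exact_mod_cast this

/-- The analytic `j`-function is `SL(2,ℤ)`-invariant. -/
theorem jFun_smul (γ : SL(2, ℤ)) (z : ℍ) : jFun (γ • z) = jFun z := by
  have hD : denom (Matrix.SpecialLinearGroup.mapGL ℝ γ) z ≠ 0 := denom_ne_zero _ z
  have hΔ : Δ z ≠ 0 := discriminant_ne_zero z
  simp only [jFun]
  rw [discriminant_smul, E4_smul]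
  field_simp

theorem sl_smul_eq (γ : SL(2, ℤ)) (z : ℍ) :
    γ • z = (Matrix.SpecialLinearGroup.mapGL ℝ γ) • z := rfl

theorem sigma_of_det_pos (g : GL (Fin 2) ℝ) (hg : 0 < g.det.val) (z : ℂ) :
    UpperHalfPlane.σ g z = z := by
  unfold UpperHalfPlane.σ
  rw [if_pos hg]
  rfl

theorem denom_mul_of_det_pos (g h : GL (Fin 2) ℝ) (hh : 0 < h.det.val) (z : ℍ) :
    denom (g * h) z = denom g ((h • z : ℍ) : ℂ) * denom h z := by
  rw [denom_cocycle_σ, sigma_of_det_pos h hh]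

theorem det_upperTriangular_pos (a b d : ℝ) (ha : 0 < a) (hd : 0 < d) (had : a * d ≠ 0) :
    0 < ((upperTriangularGL a b d had).det : ℝˣ).val := by
  have : ((upperTriangularGL a b d had).det : ℝˣ).val = a * d := by
    rw [Matrix.GeneralLinearGroup.val_det_apply, val_upperTriangularGL, Matrix.det_fin_two_of]
    ring
  rw [this]
  positivity

theorem det_mapGL_pos (g : SL(2, ℤ)) :
    0 < ((Matrix.SpecialLinearGroup.mapGL ℝ g).det : ℝˣ).val := by
  simp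

/-! ### Hermite reduction with the gcd -/

/-- Hermite reduction `(d 0; 0 1) g = γ (a b; 0 d')`, with `a = gcd(d, g₁₀)`. -/
theorem hermite_gcd (d : ℕ) (hd : 0 < d) (g : SL(2, ℤ)) :
    ∃ (γ : SL(2, ℤ)) (a d' : ℕ) (b : ℤ) (_ : 0 < a) (_ : 0 < d') (had : (a : ℝ) * d' ≠ 0)
      (hd1 : (d : ℝ) * 1 ≠ 0), a * d' = d ∧ a = Int.gcd d (g 1 0) ∧
      upperTriangularGL d 0 1 hd1 * Matrix.SpecialLinearGroup.mapGL ℝ g
        = Matrix.SpecialLinearGroup.mapGL ℝ γ * upperTriangularGL a b d' had := by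
  obtain ⟨γ, a, d', b, ha, hd', had, -, h00, h01, h10, h11⟩ :=
    Fermat.Agent.S22T.hermite_int d hd g
  have had' : (a : ℝ) * d' ≠ 0 := by
    have : (0 : ℝ) < a * d' := by positivity
    exact this.ne'
  have hd1 : (d : ℝ) * 1 ≠ 0 := by
    have : (0 : ℝ) < d * 1 := by positivity
    exact this.ne'
  refine ⟨γ, a, d', b, ha, hd', had', hd1, had, ?_, ?_⟩
  · -- gcd
    have hdetγ : γ 0 0 * γ 1 1 - γ 0 1 * γ 1 0 = 1 := by
      have := γ.det_coe
      rw [Matrix.det_fin_two] at this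
      exact this
    have h1 : (a : ℤ) ∣ (Int.gcd d (g 1 0) : ℤ) := by
      apply Int.dvd_coe_gcd
      · exact ⟨d', by exact_mod_cast had.symm⟩
      · exact ⟨γ 1 0, by rw [h10]; ring⟩
    have h2 : (Int.gcd d (g 1 0) : ℤ) ∣ (a : ℤ) := by
      have hx : (a : ℤ) = γ 1 1 * ((d : ℤ) * g 0 0) - γ 0 1 * g 1 0 := by
        rw [h00, h10]
        linear_combination (-(a : ℤ)) * hdetγ
      rw [hx]
      apply dvd_sub
      · exact Dvd.dvd.mul_left (Dvd.dvd.mul_right (Int.gcd_dvd_left _ _) _) _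
      · exact Dvd.dvd.mul_left (Int.gcd_dvd_right _ _) _
    have h3 : a ∣ Int.gcd d (g 1 0) := by exact_mod_cast h1
    have h4 : Int.gcd d (g 1 0) ∣ a := by exact_mod_cast h2
    exact Nat.dvd_antisymm h3 h4
  · apply Matrix.GeneralLinearGroup.ext
    intro i j
    have e00 : ((d : ℤ) * g 0 0 : ℝ) = (γ 0 0 * a : ℤ) := by
      exact_mod_cast congrArg (Int.cast : ℤ → ℝ) h00
    have e01 : ((d : ℤ) * g 0 1 : ℝ) = (γ 0 0 * b + γ 0 1 * d' : ℤ) := by
      exact_mod_cast congrArg (Int.cast : ℤ → ℝ) h01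
    have e10 : ((g 1 0 : ℤ) : ℝ) = (γ 1 0 * a : ℤ) := by
      exact_mod_cast congrArg (Int.cast : ℤ → ℝ) h10
    have e11 : ((g 1 1 : ℤ) : ℝ) = (γ 1 0 * b + γ 1 1 * d' : ℤ) := by
      exact_mod_cast congrArg (Int.cast : ℤ → ℝ) h11
    push_cast at e00 e01 e10 e11
    fin_cases i <;> fin_cases j <;>
      simp [Matrix.mul_apply, Fin.sum_univ_two, val_upperTriangularGL] <;>
      linarith

/-! ### Function-level conjugation identities -/

/-- The matrix `(d 0; 0 1)`. -/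
abbrev diagGL (d : ℕ) (hd1 : (d : ℝ) * 1 ≠ 0) : GL (Fin 2) ℝ := upperTriangularGL d 0 1 hd1

theorem conj_point (d : ℕ) (hd1 : (d : ℝ) * 1 ≠ 0) (g γ : SL(2, ℤ)) (H : GL (Fin 2) ℝ)
    (hH : diagGL d hd1 * Matrix.SpecialLinearGroup.mapGL ℝ g
      = Matrix.SpecialLinearGroup.mapGL ℝ γ * H) (τ : ℍ) :
    diagGL d hd1 • (g • τ) = γ • (H • τ) := by
  rw [sl_smul_eq g, sl_smul_eq γ, ← mul_smul, ← mul_smul, hH]

/-- `j(d · gτ) = j((aτ+b)/d')`. -/
theorem jFun_conj (d : ℕ) (hd1 : (d : ℝ) * 1 ≠ 0) (g γ : SL(2, ℤ)) (H : GL (Fin 2) ℝ)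
    (hH : diagGL d hd1 * Matrix.SpecialLinearGroup.mapGL ℝ g
      = Matrix.SpecialLinearGroup.mapGL ℝ γ * H) (τ : ℍ) :
    jFun (diagGL d hd1 • (g • τ)) = jFun (H • τ) := by
  rw [conj_point d hd1 g γ H hH, jFun_smul]

/-- `Δ(d · gτ)/Δ(gτ) = d'⁻¹² Δ((aτ+b)/d')/Δ(τ)`. -/
theorem discriminant_conj (d : ℕ) (hd : 0 < d) (hd1 : (d : ℝ) * 1 ≠ 0) (g γ : SL(2, ℤ))
    (a d' : ℕ) (b : ℤ) (ha : 0 < a) (hd' : 0 < d') (had : (a : ℝ) * d' ≠ 0)
    (hH : diagGL d hd1 * Matrix.SpecialLinearGroup.mapGL ℝ g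
      = Matrix.SpecialLinearGroup.mapGL ℝ γ * upperTriangularGL a b d' had) (τ : ℍ) :
    Δ (diagGL d hd1 • (g • τ)) / Δ (g • τ) =
      ((d' : ℂ)⁻¹) ^ 12 * Δ (upperTriangularGL a b d' had • τ) / Δ τ := by
  set H := upperTriangularGL (a : ℝ) (b : ℝ) (d' : ℝ) had with hHdef
  have hdetH : 0 < (H.det : ℝˣ).val :=
    det_upperTriangular_pos _ _ _ (by exact_mod_cast ha) (by exact_mod_cast hd') had
  have hden : denom (diagGL d hd1 * Matrix.SpecialLinearGroup.mapGL ℝ g) (τ : ℂ) =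
      denom (Matrix.SpecialLinearGroup.mapGL ℝ γ * H) (τ : ℂ) := by rw [hH]
  rw [denom_mul_of_det_pos _ _ (det_mapGL_pos g), denom_mul_of_det_pos _ _ hdetH,
    denom_upperTriangular, denom_upperTriangular] at hden
  rw [conj_point d hd1 g γ H hH, discriminant_smul γ, discriminant_smul g]
  have h1 : denom (Matrix.SpecialLinearGroup.mapGL ℝ g) (τ : ℂ) =
      denom (Matrix.SpecialLinearGroup.mapGL ℝ γ) ((H • τ : ℍ) : ℂ) * (d' : ℂ) := by
    have := hden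
    push_cast at this
    rw [one_mul] at this
    exact this
  rw [h1]
  have hD : denom (Matrix.SpecialLinearGroup.mapGL ℝ γ) ((H • τ : ℍ) : ℂ) ≠ 0 :=
    denom_ne_zero _ _
  have hd'0 : (d' : ℂ) ≠ 0 := by exact_mod_cast hd'.ne'
  have hΔ : Δ τ ≠ 0 := discriminant_ne_zero τ
  field_simp

end Fermat.Agent.S28.H686
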