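import Mathlib
import Fermat.Prelude.Def_ModularForm_HeckeOperator
import Fermat.Agent.S28.H565.JExp
import Fermat.Agent.S28.H686.Subst
import Fermat.Agent.S28.H686.Conj

/-!
# S28 analytic layer: `t`-expansions of the conjugates of `j(dτ)` and `Δ(dτ)/Δ(τ)`

`t = exp(2πiτ/N)`, `d ∣ N`, `g ∈ SL(2,ℤ)`, `a = gcd(d, g₁₀)`.

* `exists_hasTExp_jFun_conj`  : `τ ↦ j(d·gτ)` has an expansion `jq(ζ t^e)`;
* `exists_hasTExp_unit_conj`  : `τ ↦ Δ(d·gτ)/Δ(gτ)` and its inverse have expansions `ψ`, `ψ'` with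
  `ψ ψ' = 1`, `e d = N a²`, `ψ.order = e - N`, leading coefficients units of `O`, all coefficients
  in `O` (any subring containing `exp(2πi/N)` and `N⁻¹`).
-/

set_option autoImplicit false

noncomputable section

open UpperHalfPlane Complex Function ModularForm
open scoped Real MatrixGroups ModularForm

namespace Fermat.Agent.S28.H686

open Fermat.Agent.S28.H565 ModularCurve

local notation "𝕢" => Periodic.qParam
local notation "Δ" => ModularForm.discriminant

/-! ### Laurent series with integer coefficients of the shape `t^m (1 + ...)` -/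

/-- `t^m · P` for an integral power series `P`, over `ℂ`. -/
def intSeries (m : ℤ) (P : PowerSeries ℤ) : LaurentSeries ℂ :=
  HahnSeries.single m (1 : ℂ) * HahnSeries.ofPowerSeries ℤ ℂ (P.map (Int.castRingHom ℂ))

theorem intSeries_coeff_of_lt (m : ℤ) (P : PowerSeries ℤ) {k : ℤ} (hk : k < m) :
    (intSeries m P).coeff k = 0 := by
  rw [intSeries, HahnSeries.coeff_single_mul, one_mul]
  exact ModularCurve.ofPowerSeries_coeff_of_neg _ (by omega)

theorem intSeries_coeff_add (m : ℤ) (P : PowerSeries ℤ) (n : ℕ) :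
    (intSeries m P).coeff (m + n) = ((PowerSeries.coeff n P : ℤ) : ℂ) := by
  rw [intSeries, HahnSeries.coeff_single_mul, one_mul, add_sub_cancel_left,
    HahnSeries.ofPowerSeries_apply_coeff, PowerSeries.coeff_map]
  simp

theorem intSeries_coeff_mem (O : Subring ℂ) (m : ℤ) (P : PowerSeries ℤ) (k : ℤ) :
    (intSeries m P).coeff k ∈ O := by
  rcases lt_or_ge k m with hk | hk
  · rw [intSeries_coeff_of_lt m P hk]; exact O.zero_mem
  · obtain ⟨n, hn⟩ := Int.eq_ofNat_of_zero_le (sub_nonneg.mpr hk)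
    have : k = m + n := by omega
    rw [this, intSeries_coeff_add]
    exact intCast_mem O _

theorem order_eq_of_coeff {x : LaurentSeries ℂ} {m : ℤ} (h1 : x.coeff m ≠ 0)
    (h2 : ∀ k < m, x.coeff k = 0) : x.order = m := by
  have hx : x ≠ 0 := fun h => h1 (by rw [h]; rfl)
  apply le_antisymm (HahnSeries.order_le_of_coeff_ne_zero h1)
  by_contra hlt
  rw [not_le] at hlt
  exact hx (HahnSeries.coeff_order_eq_zero.mp (h2 _ hlt))

theorem intSeries_coeff_self (m : ℤ) {P : PowerSeries ℤ} (hP : PowerSeries.constantCoeff P = 1) :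
    (intSeries m P).coeff m = 1 := by
  have := intSeries_coeff_add m P 0
  rw [Nat.cast_zero, add_zero] at this
  rw [this, PowerSeries.coeff_zero_eq_constantCoeff, hP]
  simp

theorem intSeries_ne_zero (m : ℤ) {P : PowerSeries ℤ} (hP : PowerSeries.constantCoeff P = 1) :
    intSeries m P ≠ 0 := by
  intro h
  have := intSeries_coeff_self m hP
  rw [h] at this
  simp at this

theorem intSeries_order (m : ℤ) {P : PowerSeries ℤ} (hP : PowerSeries.constantCoeff P = 1) :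
    (intSeries m P).order = m :=
  order_eq_of_coeff (by rw [intSeries_coeff_self m hP]; exact one_ne_zero)
    (fun _ hk => intSeries_coeff_of_lt m P hk)

theorem intSeries_leadingCoeff (m : ℤ) {P : PowerSeries ℤ}
    (hP : PowerSeries.constantCoeff P = 1) : (intSeries m P).leadingCoeff = 1 := by
  rw [HahnSeries.leadingCoeff_eq, intSeries_order m hP, intSeries_coeff_self m hP]

theorem deltaSeriesC_eq : deltaSeriesC = intSeries 1 ModularCurve.dedekindEtaUnit := by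
  rw [deltaSeriesC, intSeries, map_dedekindEtaUnit]

theorem deltaInvSeriesC_eq : deltaInvSeriesC = intSeries (-1) ModularCurve.dedekindEtaUnitInv := by
  rw [deltaInvSeriesC, intSeries, etaInvC]

theorem jqModC_eq_intSeries : ModularCurve.jqModC ℂ = intSeries (-1) ModularCurve.jNum := rfl

/-! ### Multiplicativity of order/leading coefficient/coefficient ring -/

theorem coeff_mul_mem (O : Subring ℂ) {x y : LaurentSeries ℂ} (hx : ∀ n, x.coeff n ∈ O)
    (hy : ∀ n, y.coeff n ∈ O) (n : ℤ) : (x * y).coeff n ∈ O := by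
  rw [HahnSeries.coeff_mul]
  exact O.sum_mem fun ij _ => O.mul_mem (hx _) (hy _)

theorem coeff_C_mem (O : Subring ℂ) {c : ℂ} (hc : c ∈ O) (n : ℤ) :
    (HahnSeries.C c : LaurentSeries ℂ).coeff n ∈ O := by
  rw [HahnSeries.C_apply, HahnSeries.coeff_single]
  split_ifs
  · exact hc
  · exact O.zero_mem

theorem qExpand_coeff_mem (O : Subring ℂ) (N : ℕ) [NeZero N] {x : LaurentSeries ℂ}
    (hx : ∀ n, x.coeff n ∈ O) (m : ℤ) : (qExpand ℂ N x).coeff m ∈ O := by
  by_cases hdvd : (N : ℤ) ∣ m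
  · obtain ⟨n, rfl⟩ := hdvd
    rw [qExpand_coeff_mul]; exact hx n
  · rw [qExpand_coeff_of_not_dvd N x hdvd]; exact O.zero_mem

/-! ### Expansions along an upper triangular matrix -/

/-- The root of unity `exp(2πi b/d')`. -/
def zetaOf (b : ℤ) (d' : ℕ) : ℂ := cexp (2 * π * Complex.I * b / d')

theorem zetaOf_ne_zero (b : ℤ) (d' : ℕ) : zetaOf b d' ≠ 0 := exp_ne_zero _

theorem zetaOf_eq_pow (b : ℤ) (d' N : ℕ) (hd' : 0 < d') (hN : d' ∣ N) (hN0 : 0 < N) :
    zetaOf b d' = cexp (2 * π * Complex.I / N) ^ (b * (N / d' : ℕ)) := by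
  obtain ⟨k, rfl⟩ := hN
  have hk : 0 < k := by
    rcases Nat.eq_zero_or_pos k with h0 | h0
    · subst h0; simp at hN0
    · exact h0
  rw [Nat.mul_div_cancel_left k hd', zetaOf, ← Complex.exp_int_mul]
  congr 1
  have h1 : (d' : ℂ) ≠ 0 := by exact_mod_cast hd'.ne'
  have h2 : (k : ℂ) ≠ 0 := by exact_mod_cast hk.ne'
  push_cast
  field_simp

theorem hasTExp_comp_upperTriangular {f : ℍ → ℂ} {φ : LaurentSeries ℂ} (hf : HasTExp 1 f φ)
    (N a d' e : ℕ) (b : ℤ) [NeZero N] [NeZero e] (ha : 0 < a) (hd' : 0 < d')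
    (he : N * a = e * d') (had : (a : ℝ) * d' ≠ 0) :
    HasTExp N (fun τ => f (upperTriangularGL a b d' had • τ))
      (substSeries (zetaOf b d') (zetaOf_ne_zero b d') e φ) :=
  hasTExp_comp_of_qParam hf (fun τ => upperTriangularGL a b d' had • τ) _ _ e
    (fun τ => qParam_upperTriangular_smul N a d' e b ha hd' he had τ)

/-! ### Membership of the relevant constants in the coefficient ring -/

section CoeffRing

variable (O : Subring ℂ) (N : ℕ) [NeZero N]

theorem omega_pow_N : cexp (2 * π * Complex.I / N) ^ N = 1 := by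
  have hN : (N : ℂ) ≠ 0 := by exact_mod_cast NeZero.ne N
  rw [← Complex.exp_nat_mul, mul_div_cancel₀ _ hN, Complex.exp_two_pi_mul_I]

theorem omega_inv_mem (hO1 : cexp (2 * π * Complex.I / N) ∈ O) :
    (cexp (2 * π * Complex.I / N))⁻¹ ∈ O := by
  have hN : 0 < N := Nat.pos_of_ne_zero (NeZero.ne N)
  have h : (cexp (2 * π * Complex.I / N))⁻¹ = cexp (2 * π * Complex.I / N) ^ (N - 1) := by
    have h1 := omega_pow_N N
    have h2 : cexp (2 * π * Complex.I / N) ^ (N - 1) * cexp (2 * π * Complex.I / N) = 1 := by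
      rw [← pow_succ, Nat.sub_add_cancel hN, h1]
    exact (eq_inv_of_mul_eq_one_left h2).symm
  rw [h]
  exact O.pow_mem hO1 _

theorem zpow_mem_of_mem {x : ℂ} (hx : x ∈ O) (hx' : x⁻¹ ∈ O) (n : ℤ) : x ^ n ∈ O := by
  rcases Int.natAbs_eq n with h | h
  · rw [h, zpow_natCast]; exact O.pow_mem hx _
  · rw [h, zpow_neg, zpow_natCast, ← inv_pow]; exact O.pow_mem hx' _

theorem zetaOf_mem (hO1 : cexp (2 * π * Complex.I / N) ∈ O) (b : ℤ) (d' : ℕ) (hd' : 0 < d')
    (hN : d' ∣ N) : zetaOf b d' ∈ O := by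
  rw [zetaOf_eq_pow b d' N hd' hN (Nat.pos_of_ne_zero (NeZero.ne N))]
  exact zpow_mem_of_mem O hO1 (omega_inv_mem O N hO1) _

theorem zetaOf_inv_mem (hO1 : cexp (2 * π * Complex.I / N) ∈ O) (b : ℤ) (d' : ℕ) (hd' : 0 < d')
    (hN : d' ∣ N) : (zetaOf b d')⁻¹ ∈ O := by
  rw [zetaOf_eq_pow b d' N hd' hN (Nat.pos_of_ne_zero (NeZero.ne N)), ← zpow_neg]
  exact zpow_mem_of_mem O hO1 (omega_inv_mem O N hO1) _

theorem zetaOf_pow (b : ℤ) (d' : ℕ) (hd' : 0 < d') : zetaOf b d' ^ d' = 1 := by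
  have h1 : (d' : ℂ) ≠ 0 := by exact_mod_cast hd'.ne'
  rw [zetaOf, ← Complex.exp_nat_mul, mul_div_cancel₀ _ h1]
  have : 2 * (π : ℂ) * Complex.I * b = b * (2 * π * Complex.I) := by ring
  rw [this, Complex.exp_int_mul_two_pi_mul_I]

theorem natCast_inv_mem_of_dvd (hO2 : (N : ℂ)⁻¹ ∈ O) (d' : ℕ) (hN : d' ∣ N) :
    (d' : ℂ)⁻¹ ∈ O := by
  obtain ⟨k, hk⟩ := hN
  have hN0 : (N : ℂ) ≠ 0 := by exact_mod_cast NeZero.ne N
  have hd0 : (d' : ℂ) ≠ 0 := by
    intro h
    apply hN0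
    rw [hk]; push_cast; rw [h, zero_mul]
  have hk0 : (k : ℂ) ≠ 0 := by
    intro h
    apply hN0
    rw [hk]; push_cast; rw [h, mul_zero]
  have : (d' : ℂ)⁻¹ = k * (N : ℂ)⁻¹ := by
    rw [hk]; push_cast
    field_simp
  rw [this]
  exact O.mul_mem (natCast_mem O k) hO2

end CoeffRing

/-! ### The conjugates of `j(dτ)` -/

/-- **Expansion of the conjugates of `j(dτ)`.** -/
theorem exists_hasTExp_jFun_conj (N d : ℕ) [NeZero N] (hd : 0 < d) (hdN : d ∣ N)
    (hd1 : (d : ℝ) * 1 ≠ 0) (g : SL(2, ℤ)) :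
    ∃ (e : ℕ) (_ : NeZero e) (ζ : ℂ) (hζ : ζ ≠ 0), ζ ^ N = 1 ∧
      (e : ℤ) * d = N * (Int.gcd d (g 1 0) : ℤ) ^ 2 ∧
      HasTExp N (fun τ => jFun (diagGL d hd1 • (g • τ))) (substSeries ζ hζ e (jqModC ℂ)) := by
  obtain ⟨γ, a, d', b, ha, hd', had, hd1', hadd, hgcd, hH⟩ := hermite_gcd d hd g
  have hd'N : d' ∣ N := (Dvd.intro_left a hadd).trans hdN
  obtain ⟨k, hk⟩ := hd'N
  have hk0 : 0 < k := by
    rcases Nat.eq_zero_or_pos k with h0 | h0
    · subst h0; exact absurd hk (by simpa using NeZero.ne N)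
    · exact h0
  have he0 : k * a ≠ 0 := Nat.mul_ne_zero hk0.ne' ha.ne'
  have : NeZero (k * a) := ⟨he0⟩
  have he : N * a = (k * a) * d' := by rw [hk]; ring
  refine ⟨k * a, ⟨he0⟩, zetaOf b d', zetaOf_ne_zero b d', ?_, ?_, ?_⟩
  · rw [hk, pow_mul, zetaOf_pow b d' hd', one_pow]
  · rw [← hgcd, ← hadd, hk]; push_cast; ring
  · have h1 := hasTExp_comp_upperTriangular hasTExp_jFun N a d' (k * a) b ha hd' he had
    refine h1.congr fun τ => ?_
    exact (jFun_conj d hd1 g γ _ hH τ).symm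

/-! ### The conjugates of `Δ(dτ)/Δ(τ)` -/

/-- **Expansion of the conjugates of the modular unit `u_d = Δ(dτ)/Δ(τ)`.**
`O` is any subring of `ℂ` containing `exp(2πi/N)` and `1/N`. -/
theorem exists_hasTExp_unit_conj (O : Subring ℂ) (N d : ℕ) [NeZero N]
    (hO1 : cexp (2 * π * Complex.I / N) ∈ O) (hO2 : (N : ℂ)⁻¹ ∈ O)
    (hd : 0 < d) (hdN : d ∣ N) (hd1 : (d : ℝ) * 1 ≠ 0) (g : SL(2, ℤ)) :
    ∃ ψ ψ' : LaurentSeries ℂ,
      HasTExp N (fun τ => Δ (diagGL d hd1 • (g • τ)) / Δ (g • τ)) ψ ∧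
      HasTExp N (fun τ => Δ (g • τ) / Δ (diagGL d hd1 • (g • τ))) ψ' ∧
      ψ * ψ' = 1 ∧
      (d : ℤ) * ψ.order = N * (Int.gcd d (g 1 0) : ℤ) ^ 2 - N * d ∧
      (∀ n, ψ.coeff n ∈ O) ∧ (∀ n, ψ'.coeff n ∈ O) ∧
      ψ.leadingCoeff ∈ O ∧ ψ.leadingCoeff⁻¹ ∈ O := by
  obtain ⟨γ, a, d', b, ha, hd', had, hd1', hadd, hgcd, hH⟩ := hermite_gcd d hd g
  have hd'N : d' ∣ N := (Dvd.intro_left a hadd).trans hdN
  obtain ⟨k, hk⟩ := id hd'N
  have hk0 : 0 < k := by
    rcases Nat.eq_zero_or_pos k with h0 | h0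
    · subst h0; exact absurd hk (by simpa using NeZero.ne N)
    · exact h0
  have he0 : k * a ≠ 0 := Nat.mul_ne_zero hk0.ne' ha.ne'
  have : NeZero (k * a) := ⟨he0⟩
  have he : N * a = (k * a) * d' := by rw [hk]; ring
  set ζ := zetaOf b d' with hζdef
  have hζ : ζ ≠ 0 := zetaOf_ne_zero b d'
  have hc0 : (d' : ℂ) ≠ 0 := by exact_mod_cast hd'.ne'
  have hζO : ζ ∈ O := zetaOf_mem O N hO1 b d' hd' hd'N
  have hζO' : ζ⁻¹ ∈ O := zetaOf_inv_mem O N hO1 b d' hd' hd'N
  have hcO : (d' : ℂ) ∈ O := natCast_mem O d'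
  have hcO' : (d' : ℂ)⁻¹ ∈ O := natCast_inv_mem_of_dvd O N hO2 d' hd'N
  -- the series
  set S1 := substSeries ζ hζ (k * a) deltaSeriesC with hS1
  set S2 := qExpand ℂ N deltaInvSeriesC with hS2
  set S1' := substSeries ζ hζ (k * a) deltaInvSeriesC with hS1'
  set S2' := qExpand ℂ N deltaSeriesC with hS2'
  have hΔ0 : deltaSeriesC ≠ 0 := by
    rw [deltaSeriesC_eq]; exact intSeries_ne_zero 1 constantCoeff_dedekindEtaUnit
  have hΔi0 : deltaInvSeriesC ≠ 0 := by
    rw [deltaInvSeriesC_eq]; exact intSeries_ne_zero (-1) constantCoeff_dedekindEtaUnitInv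
  have hΔord : deltaSeriesC.order = 1 := by
    rw [deltaSeriesC_eq]; exact intSeries_order 1 constantCoeff_dedekindEtaUnit
  have hΔiord : deltaInvSeriesC.order = -1 := by
    rw [deltaInvSeriesC_eq]; exact intSeries_order (-1) constantCoeff_dedekindEtaUnitInv
  have hΔlc : deltaSeriesC.leadingCoeff = 1 := by
    rw [deltaSeriesC_eq]; exact intSeries_leadingCoeff 1 constantCoeff_dedekindEtaUnit
  have hΔilc : deltaInvSeriesC.leadingCoeff = 1 := by
    rw [deltaInvSeriesC_eq]; exact intSeries_leadingCoeff (-1) constantCoeff_dedekindEtaUnitInv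
  have hS1ord : S1.order = ((k * a : ℕ) : ℤ) := by
    rw [hS1, substSeries_order ζ hζ (k * a) hΔ0, hΔord, mul_one]
  have hS2eq : S2 = substSeries 1 one_ne_zero N deltaInvSeriesC :=
    (substSeries_one_eq_qExpand N _).symm
  have hS2ord : S2.order = -(N : ℤ) := by
    rw [hS2eq, substSeries_order 1 one_ne_zero N hΔi0, hΔiord]; ring
  have hS1lc : S1.leadingCoeff = ζ := by
    rw [hS1, substSeries_leadingCoeff ζ hζ (k * a) hΔ0, hΔord, hΔlc, zpow_one, mul_one]
  have hS2lc : S2.leadingCoeff = 1 := by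
    rw [hS2eq, substSeries_leadingCoeff 1 one_ne_zero N hΔi0, hΔilc, one_zpow, one_mul]
  have hS1ne : S1 ≠ 0 := substSeries_ne_zero ζ hζ (k * a) hΔ0
  have hS2ne : S2 ≠ 0 := by rw [hS2eq]; exact substSeries_ne_zero 1 one_ne_zero N hΔi0
  have hCne : (HahnSeries.C ((d' : ℂ)⁻¹ ^ 12) : LaurentSeries ℂ) ≠ 0 := by
    intro h
    have := congrArg (fun x : LaurentSeries ℂ => x.coeff 0) h
    simp [hc0] at this
  have hCord : (HahnSeries.C ((d' : ℂ)⁻¹ ^ 12) : LaurentSeries ℂ).order = 0 :=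
    HahnSeries.order_C
  have hClc : (HahnSeries.C ((d' : ℂ)⁻¹ ^ 12) : LaurentSeries ℂ).leadingCoeff
      = (d' : ℂ)⁻¹ ^ 12 := HahnSeries.leadingCoeff_of_single
  refine ⟨HahnSeries.C ((d' : ℂ)⁻¹ ^ 12) * S1 * S2, HahnSeries.C ((d' : ℂ) ^ 12) * S1' * S2',
    ?_, ?_, ?_, ?_, ?_, ?_, ?_, ?_⟩
  · -- expansion of the conjugate
    have h1 := hasTExp_comp_upperTriangular hasTExp_discriminant N a d' (k * a) b ha hd' he had
    have h2 := hasTExp_width hasTExp_discriminant_inv N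
    have h3 := ((HasTExp.const (h := (N : ℝ)) ((d' : ℂ)⁻¹ ^ 12)).mul h1).mul h2
    refine h3.congr fun τ => ?_
    rw [discriminant_conj d hd hd1 g γ a d' b ha hd' had hH τ]
    simp only [Pi.mul_apply]
    rw [div_eq_mul_inv]
  · have h1 := hasTExp_comp_upperTriangular hasTExp_discriminant_inv N a d' (k * a) b ha hd' he
      had
    have h2 := hasTExp_width hasTExp_discriminant N
    have h3 := ((HasTExp.const (h := (N : ℝ)) ((d' : ℂ) ^ 12)).mul h1).mul h2
    refine h3.congr fun τ => ?_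
    have hne1 : Δ (g • τ) ≠ 0 := discriminant_ne_zero _
    have hne2 : Δ (diagGL d hd1 • (g • τ)) ≠ 0 := discriminant_ne_zero _
    have hne3 : Δ (upperTriangularGL a b d' had • τ) ≠ 0 := discriminant_ne_zero _
    have hne4 : Δ τ ≠ 0 := discriminant_ne_zero _
    have key := discriminant_conj d hd hd1 g γ a d' b ha hd' had hH τ
    have key' : Δ (g • τ) / Δ (diagGL d hd1 • (g • τ)) =
        (d' : ℂ) ^ 12 * (Δ (upperTriangularGL a b d' had • τ))⁻¹ * Δ τ := by
      rw [← inv_div, key]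
      field_simp
    rw [key']
    simp only [Pi.mul_apply]
  · -- ψ ψ' = 1
    have e1 : S1 * S1' = 1 := by
      rw [hS1, hS1', ← map_mul, deltaSeriesC_mul_inv, map_one]
    have e2 : S2 * S2' = 1 := by
      rw [hS2, hS2', ← map_mul, mul_comm, deltaSeriesC_mul_inv, map_one]
    have e3 : (HahnSeries.C ((d' : ℂ)⁻¹ ^ 12) : LaurentSeries ℂ) * HahnSeries.C ((d' : ℂ) ^ 12)
        = 1 := by
      rw [← map_mul, ← mul_pow, inv_mul_cancel₀ hc0, one_pow, map_one]
    calc HahnSeries.C ((d' : ℂ)⁻¹ ^ 12) * S1 * S2 * (HahnSeries.C ((d' : ℂ) ^ 12) * S1' * S2')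
        = (HahnSeries.C ((d' : ℂ)⁻¹ ^ 12) * HahnSeries.C ((d' : ℂ) ^ 12)) * (S1 * S1') *
            (S2 * S2') := by ring
      _ = 1 := by rw [e1, e2, e3]; ring
  · -- order
    rw [HahnSeries.order_mul (mul_ne_zero hCne hS1ne) hS2ne, HahnSeries.order_mul hCne hS1ne,
      hCord, hS1ord, hS2ord, ← hgcd, ← hadd, hk]
    push_cast
    ring
  · intro n
    refine coeff_mul_mem O (coeff_mul_mem O (coeff_C_mem O (O.pow_mem hcO' 12)) ?_) ?_ n
    · intro m
      exact substSeries_coeff_mem O ζ hζ hζO hζO' (k * a)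
        (fun j => by rw [deltaSeriesC_eq]; exact intSeries_coeff_mem O _ _ j) m
    · intro m
      exact qExpand_coeff_mem O N
        (fun j => by rw [deltaInvSeriesC_eq]; exact intSeries_coeff_mem O _ _ j) m
  · intro n
    refine coeff_mul_mem O (coeff_mul_mem O (coeff_C_mem O (O.pow_mem hcO 12)) ?_) ?_ n
    · intro m
      exact substSeries_coeff_mem O ζ hζ hζO hζO' (k * a)
        (fun j => by rw [deltaInvSeriesC_eq]; exact intSeries_coeff_mem O _ _ j) m
    · intro m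
      exact qExpand_coeff_mem O N
        (fun j => by rw [deltaSeriesC_eq]; exact intSeries_coeff_mem O _ _ j) m
  · rw [HahnSeries.leadingCoeff_mul, HahnSeries.leadingCoeff_mul, hClc, hS1lc, hS2lc, mul_one]
    exact O.mul_mem (O.pow_mem hcO' 12) hζO
  · rw [HahnSeries.leadingCoeff_mul, HahnSeries.leadingCoeff_mul, hClc, hS1lc, hS2lc, mul_one,
      mul_inv, ← inv_pow, inv_inv]
    exact O.mul_mem (O.pow_mem hcO 12) hζO'

end Fermat.Agent.S28.H686
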